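import Fermat.Agent.S27.Val
import Fermat.Agent.S27.LSpace.IsFF1
import Fermat.Agent.RR.Kaehler
import Fermat.Agent.S17.AH.Basic

/-!
# S17 / Cur 1 : projective coordinate vectors of places, heights of places

`φ : ι → F` a finite family of functions, not all zero.  It defines a morphism `C → ℙ(K^ι)`.
* `IsPV φ P x` : `x` is a vector of homogeneous coordinates of the image of `P`;
* `IsPD φ D` : `D = - min_i div (φ i)` is the "pole divisor" of the family (the family is a base
  point free linear system of sections of `O(D)`);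
* `IsWV φ P Q w` : `w` is a vector of Pluecker coordinates of the secant line through the images of
  `P` and `Q` (tangent line if `P = Q`);
* `ht φ P`, `hW φ P Q` : the absolute logarithmic heights of these vectors (`K = ℚ̄`).
-/

set_option autoImplicit false
set_option linter.unusedSectionVars false

open AlgebraicCurve

namespace Fermat.Agent.S17.Cur

open S27 AH

section Defs

variable {K F : Type*} [Field K] [Field F] [Algebra K F] {ι : Type*}

/-- `x` is a vector of homogeneous coordinates of the image of `P` under `φ`. -/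
def IsPV (φ : ι → F) (P : Place K F) (x : ι → K) : Prop :=
  ∃ u : F, (∀ i, P.adicValuation (u * φ i) ≤ 1) ∧ (∃ i, P.adicValuation (u * φ i) = 1) ∧
    ∀ i, x i = val P (u * φ i)

/-- `D` is the pole divisor of the family `φ`. -/
def IsPD (φ : ι → F) (D : Divisor K F) : Prop :=
  ∀ P : Place K F, (∀ i, P.adicValuation (φ i) ≤ WithZero.exp (D P)) ∧
    ∃ i, P.adicValuation (φ i) = WithZero.exp (D P)

/-- `w` is a vector of Pluecker coordinates of the secant (tangent) line of `P`, `Q`. -/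
def IsWV (φ : ι → F) (P Q : Place K F) (w : ι × ι → K) : Prop :=
  (P ≠ Q ∧ ∃ x y : ι → K, IsPV φ P x ∧ IsPV φ Q y ∧ ∀ p, w p = x p.1 * y p.2 - x p.2 * y p.1) ∨
  (P = Q ∧ ∃ u t : F, P.ord t = 1 ∧ (∀ i, P.adicValuation (u * φ i) ≤ 1) ∧
    (∃ i, P.adicValuation (u * φ i) = 1) ∧
    ∀ p, w p = val P (u * φ p.1) * val P ((u * φ p.2 - algebraMap K F (val P (u * φ p.2))) / t) -
      val P (u * φ p.2) * val P ((u * φ p.1 - algebraMap K F (val P (u * φ p.1))) / t))

/-- the family is very ample : it separates points and tangent vectors. -/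
def IsVA (K : Type*) {F : Type*} [Field K] [Field F] [Algebra K F] {ι : Type*} (φ : ι → F) : Prop :=
  ∀ (P Q : Place K F) (w : ι × ι → K), IsWV φ P Q w → w ≠ 0

open Classical in
/-- a choice of homogeneous coordinates. -/
noncomputable def pv (φ : ι → F) (P : Place K F) : ι → K :=
  if h : ∃ x, IsPV φ P x then h.choose else 0

open Classical in
/-- a choice of Pluecker coordinates. -/
noncomputable def wv (φ : ι → F) (P Q : Place K F) : ι × ι → K :=
  if h : ∃ w, IsWV φ P Q w then h.choose else 0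

end Defs

section API

variable {K F : Type*} [Field K] [Field F] [Algebra K F] [IsAlgClosed K] [CharZero K] [IsFF K F]
  {ι κ : Type*}

theorem exists_isPV [Finite ι] {φ : ι → F} (hφ : φ ≠ 0) (P : Place K F) : ∃ x, IsPV φ P x := by
  classical
  cases nonempty_fintype ι
  obtain ⟨i₁, hi₁⟩ := Function.ne_iff.mp hφ
  obtain ⟨i₀, -, hmax⟩ := Finset.exists_max_image Finset.univ (fun i => P.adicValuation (φ i))
    ⟨i₁, Finset.mem_univ _⟩
  have h0 : φ i₀ ≠ 0 := by
    intro h
    have := hmax i₁ (Finset.mem_univ _)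
    rw [h, map_zero, le_zero_iff, map_eq_zero] at this
    exact hi₁ this
  have hpos : 0 < P.adicValuation (φ i₀) := zero_lt_iff.mpr (by simpa using h0)
  refine ⟨fun i => val P ((φ i₀)⁻¹ * φ i), (φ i₀)⁻¹, fun i => ?_, ⟨i₀, ?_⟩, fun i => rfl⟩
  · rw [map_mul, map_inv₀, inv_mul_le_one₀ hpos]
    exact hmax i (Finset.mem_univ _)
  · rw [inv_mul_cancel₀ h0, map_one]

theorem IsPV.ne_zero {φ : ι → F} {P : Place K F} {x : ι → K} (h : IsPV φ P x) : x ≠ 0 := by
  obtain ⟨u, h1, ⟨i, hi⟩, hx⟩ := h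
  intro h0
  have := congrFun h0 i
  rw [hx, Pi.zero_apply, val_eq_zero_iff P hi.le, hi] at this
  exact lt_irrefl _ this

theorem IsPV.exists_eq_smul {φ : ι → F} {P : Place K F} {x y : ι → K} (h : IsPV φ P x)
    (h' : IsPV φ P y) : ∃ c : K, c ≠ 0 ∧ ∀ i, y i = c * x i := by
  obtain ⟨u, h1, ⟨i, hi⟩, hx⟩ := h
  obtain ⟨u', h1', ⟨i', hi'⟩, hy⟩ := h'
  have hu : u ≠ 0 := by rintro rfl; simp at hi
  have hu' : u' ≠ 0 := by rintro rfl; simp at hi'
  have hφi : φ i ≠ 0 := by intro h; rw [h] at hi; simp at hi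
  have hφi' : φ i' ≠ 0 := by intro h; rw [h] at hi'; simp at hi'
  have e1 : P.adicValuation (u' / u) ≤ 1 := by
    have : u' / u = (u' * φ i) / (u * φ i) := by field_simp
    rw [this, map_div₀, hi, div_one]
    exact h1' i
  have e2 : P.adicValuation (u / u') ≤ 1 := by
    have : u / u' = (u * φ i') / (u' * φ i') := by field_simp
    rw [this, map_div₀, hi', div_one]
    exact h1 i'
  have e3 : P.adicValuation (u' / u) = 1 := by
    refine le_antisymm e1 ?_
    have : u' / u = (u / u')⁻¹ := by field_simp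
    rw [this, map_inv₀]
    exact (one_le_inv₀ (zero_lt_iff.mpr (by simp [hu, hu']))).mpr e2
  refine ⟨val P (u' / u), ?_, fun k => ?_⟩
  · intro h0
    rw [val_eq_zero_iff P e1, e3] at h0
    exact lt_irrefl _ h0
  · rw [hy, hx, ← val_mul P e1 (h1 k)]
    congr 1
    field_simp

theorem IsPV.smul {φ : ι → F} {P : Place K F} {x : ι → K} (h : IsPV φ P x) {c : K} (hc : c ≠ 0) :
    IsPV φ P (fun i => c * x i) := by
  obtain ⟨u, h1, ⟨i, hi⟩, hx⟩ := h
  have hc1 : P.adicValuation (algebraMap K F c) = 1 := adic_algebraMap P hc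
  refine ⟨algebraMap K F c * u, fun k => ?_, ⟨i, ?_⟩, fun k => ?_⟩
  · rw [mul_assoc, map_mul, hc1, one_mul]; exact h1 k
  · rw [mul_assoc, map_mul, hc1, one_mul]; exact hi
  · show c * x k = _
    rw [mul_assoc, val_mul P hc1.le (h1 k), val_algebraMap, hx]

theorem isPV_mul_left_iff {φ : ι → F} {P : Place K F} {x : ι → K} {f : F} (hf : f ≠ 0) :
    IsPV (fun i => f * φ i) P x ↔ IsPV φ P x := by
  constructor
  · rintro ⟨u, h1, ⟨i, hi⟩, hx⟩
    refine ⟨u * f, fun k => ?_, ⟨i, ?_⟩, fun k => ?_⟩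
    · rw [mul_assoc]; exact h1 k
    · rw [mul_assoc]; exact hi
    · rw [mul_assoc]; exact hx k
  · rintro ⟨u, h1, ⟨i, hi⟩, hx⟩
    have e : ∀ k, u / f * (f * φ k) = u * φ k := fun k => by field_simp
    refine ⟨u / f, fun k => ?_, ⟨i, ?_⟩, fun k => ?_⟩
    · rw [e]; exact h1 k
    · rw [e]; exact hi
    · rw [e]; exact hx k

theorem IsPV.tmul {φ : ι → F} {ψ : κ → F} {P : Place K F} {x : ι → K} {y : κ → K}
    (h : IsPV φ P x) (h' : IsPV ψ P y) :
    IsPV (fun p : ι × κ => φ p.1 * ψ p.2) P (fun p => x p.1 * y p.2) := by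
  obtain ⟨u, h1, ⟨i, hi⟩, hx⟩ := h
  obtain ⟨u', h1', ⟨i', hi'⟩, hy⟩ := h'
  have e : ∀ p : ι × κ, u * u' * (φ p.1 * ψ p.2) = (u * φ p.1) * (u' * ψ p.2) := fun p => by ring
  refine ⟨u * u', fun p => ?_, ⟨(i, i'), ?_⟩, fun p => ?_⟩
  · rw [e, map_mul]; exact mul_le_one' (h1 _) (h1' _)
  · rw [e, map_mul, hi, hi', one_mul]
  · show x p.1 * y p.2 = _
    rw [e, val_mul P (h1 _) (h1' _), hx, hy]

theorem IsPV.comp_equiv {φ : ι → F} {P : Place K F} {x : ι → K} (h : IsPV φ P x) (e : κ ≃ ι) :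
    IsPV (φ ∘ e) P (x ∘ e) := by
  obtain ⟨u, h1, ⟨i, hi⟩, hx⟩ := h
  exact ⟨u, fun k => h1 _, ⟨e.symm i, by simpa using hi⟩, fun k => hx _⟩

theorem isPV_pv [Finite ι] {φ : ι → F} (hφ : φ ≠ 0) (P : Place K F) : IsPV φ P (pv φ P) := by
  have h := exists_isPV hφ P
  unfold pv
  rw [dif_pos h]
  exact h.choose_spec

theorem exists_isPD [Finite ι] {φ : ι → F} (hφ : φ ≠ 0) : ∃ D : Divisor K F, IsPD φ D := by
  classical
  cases nonempty_fintype ι
  obtain ⟨i₁, hi₁⟩ := Function.ne_iff.mp hφ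
  have hex : ∀ P : Place K F, ∃ i₀, φ i₀ ≠ 0 ∧ ∀ i, P.adicValuation (φ i) ≤ P.adicValuation (φ i₀) := by
    intro P
    obtain ⟨i₀, -, hmax⟩ := Finset.exists_max_image Finset.univ (fun i => P.adicValuation (φ i))
      ⟨i₁, Finset.mem_univ _⟩
    refine ⟨i₀, ?_, fun i => hmax i (Finset.mem_univ _)⟩
    intro h
    have := hmax i₁ (Finset.mem_univ _)
    rw [h, map_zero, le_zero_iff, map_eq_zero] at this
    exact hi₁ this
  choose i₀ h0 hmax using hex
  have hfin : (Function.support fun P : Place K F => -P.ord (φ (i₀ P))).Finite := by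
    refine (Set.finite_iUnion fun i : ι => finite_ord_ne_zero (K := K) (φ i)).subset ?_
    intro P hP
    rw [Function.mem_support] at hP
    exact Set.mem_iUnion.mpr ⟨i₀ P, fun h => hP (by rw [h, neg_zero])⟩
  refine ⟨Finsupp.ofSupportFinite _ hfin, fun P => ?_⟩
  have e : (Finsupp.ofSupportFinite _ hfin : Divisor K F) P = -P.ord (φ (i₀ P)) := rfl
  rw [e, ← P.adicValuation_eq_exp_neg_ord (h0 P)]
  exact ⟨hmax P, i₀ P, rfl⟩

theorem IsPD.unique {φ : ι → F} {D E : Divisor K F} (h : IsPD φ D) (h' : IsPD φ E) : D = E := by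
  ext P
  obtain ⟨h1, i, hi⟩ := h P
  obtain ⟨h1', i', hi'⟩ := h' P
  have e1 := h1 i'
  have e2 := h1' i
  rw [hi'] at e1
  rw [hi] at e2
  exact le_antisymm (WithZero.exp_le_exp.mp e2) (WithZero.exp_le_exp.mp e1)

theorem IsPD.ne_zero {φ : ι → F} {D : Divisor K F} (h : IsPD φ D) : φ ≠ 0 := by
  have := infinite_places K F
  obtain ⟨P⟩ : Nonempty (Place K F) := inferInstance
  obtain ⟨-, i, hi⟩ := h P
  intro h0
  rw [h0, Pi.zero_apply, map_zero] at hi
  exact WithZero.exp_ne_zero hi.symm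

theorem IsPD.tmul {φ : ι → F} {ψ : κ → F} {D E : Divisor K F} (h : IsPD φ D) (h' : IsPD ψ E) :
    IsPD (fun p : ι × κ => φ p.1 * ψ p.2) (D + E) := by
  intro P
  obtain ⟨h1, i, hi⟩ := h P
  obtain ⟨h1', i', hi'⟩ := h' P
  refine ⟨fun p => ?_, (i, i'), ?_⟩
  · rw [map_mul, Finsupp.add_apply, WithZero.exp_add]
    exact mul_le_mul' (h1 _) (h1' _)
  · rw [map_mul, Finsupp.add_apply, WithZero.exp_add, hi, hi']

theorem IsPD.mul_left {φ : ι → F} {D : Divisor K F} (h : IsPD φ D) {f : F} (hf : f ≠ 0) :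
    IsPD (fun i => f * φ i) (D - divOf (K := K) f) := by
  intro P
  obtain ⟨h1, i, hi⟩ := h P
  have e : WithZero.exp ((D - divOf (K := K) f) P) = P.adicValuation f * WithZero.exp (D P) := by
    rw [Finsupp.sub_apply, divOf_apply, P.adicValuation_eq_exp_neg_ord hf, ← WithZero.exp_add]
    congr 1
    ring
  rw [e]
  refine ⟨fun k => ?_, i, ?_⟩
  · rw [map_mul]
    exact mul_le_mul_right (h1 k) _
  · rw [map_mul, hi]

/-- the degree of the pole divisor is `≥ 0`. -/
theorem IsPD.degree_nonneg {φ : ι → F} {D : Divisor K F} (h : IsPD φ D) :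
    0 ≤ Divisor.degree D := by
  obtain ⟨i, hi⟩ := Function.ne_iff.mp h.ne_zero
  have hi' : φ i ≠ 0 := hi
  have h1 : 0 ≤ D + divOf (K := K) (φ i) := by
    intro P
    have := (h P).1 i
    rw [P.adicValuation_eq_exp_neg_ord hi', WithZero.exp_le_exp] at this
    rw [Finsupp.add_apply, divOf_apply, Finsupp.coe_zero, Pi.zero_apply]
    omega
  have h2 := RR.degree_nonneg h1
  rwa [map_add, degree_divOf hi', add_zero] at h2

/-- `u` normalises `φ` at `P` iff `ord_P u = D P`. -/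
theorem IsPD.isPV_of_ord {φ : ι → F} {D : Divisor K F} (h : IsPD φ D) (P : Place K F) {u : F}
    (hu0 : u ≠ 0) (hu : P.ord u = D P) : IsPV φ P (fun i => val P (u * φ i)) := by
  obtain ⟨h1, i, hi⟩ := h P
  have e : P.adicValuation u = WithZero.exp (-(D P)) := by
    rw [P.adicValuation_eq_exp_neg_ord hu0, hu]
  refine ⟨u, fun k => ?_, ⟨i, ?_⟩, fun k => rfl⟩
  · rw [map_mul, e]
    calc WithZero.exp (-(D P)) * P.adicValuation (φ k)
        ≤ WithZero.exp (-(D P)) * WithZero.exp (D P) := mul_le_mul_right (h1 k) _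
      _ = 1 := by rw [← WithZero.exp_add, neg_add_cancel, WithZero.exp_zero]
  · rw [map_mul, e, hi, ← WithZero.exp_add, neg_add_cancel, WithZero.exp_zero]

/-- a spanning family of `L(D)` has pole divisor `D` as soon as `deg D ≥ 2 g`. -/
theorem isPD_of_span {φ : ι → F} {D : Divisor K F}
    (hD : 2 * (genusFF K F : ℤ) ≤ Divisor.degree D)
    (hφ : Submodule.span K (Set.range φ) = riemannRochSpace D) : IsPD φ D := by
  sorry

/-- a spanning family of `L(D)` is very ample as soon as `deg D ≥ 2 g + 1`. -/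
theorem isVA_of_span {φ : ι → F} {D : Divisor K F}
    (hD : 2 * (genusFF K F : ℤ) + 1 ≤ Divisor.degree D)
    (hφ : Submodule.span K (Set.range φ) = riemannRochSpace D) : IsVA K φ := by
  sorry

theorem exists_isWV [Finite ι] {φ : ι → F} (hφ : φ ≠ 0) (P Q : Place K F) :
    ∃ w, IsWV φ P Q w := by
  sorry

theorem IsWV.exists_eq_smul {φ : ι → F} {P Q : Place K F} {w w' : ι × ι → K}
    (h : IsWV φ P Q w) (h' : IsWV φ P Q w') : ∃ c : K, c ≠ 0 ∧ ∀ p, w' p = c * w p := by
  sorry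

theorem IsWV.smul {φ : ι → F} {P Q : Place K F} {w : ι × ι → K} (h : IsWV φ P Q w) {c : K}
    (hc : c ≠ 0) : IsWV φ P Q (fun p => c * w p) := by
  sorry

theorem IsWV.symm {φ : ι → F} {P Q : Place K F} {w : ι × ι → K} (h : IsWV φ P Q w) :
    IsWV φ Q P (fun p => w p.swap) := by
  sorry

theorem isWV_wv [Finite ι] {φ : ι → F} (hφ : φ ≠ 0) (P Q : Place K F) :
    IsWV φ P Q (wv φ P Q) := by
  sorry

end API

section Height

variable {F : Type*} [Field F] [Algebra Qb F] [IsFF Qb F] {ι κ : Type*} [Finite ι] [Finite κ]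

/-- the height of `P` with respect to the family `φ`. -/
noncomputable def ht (φ : ι → F) (P : Place Qb F) : ℝ := absLogHeight (pv φ P)

/-- the height of the secant line. -/
noncomputable def hW (φ : ι → F) (P Q : Place Qb F) : ℝ := absLogHeight (wv φ P Q)

theorem ht_eq {φ : ι → F} {P : Place Qb F} {x : ι → Qb} (h : IsPV φ P x) :
    ht φ P = absLogHeight x := by
  sorry

theorem hW_eq {φ : ι → F} {P Q : Place Qb F} {w : ι × ι → Qb} (h : IsWV φ P Q w) :
    hW φ P Q = absLogHeight w := by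
  sorry

theorem ht_nonneg (φ : ι → F) (P : Place Qb F) : 0 ≤ ht φ P := absLogHeight_nonneg _

theorem hW_comm (φ : ι → F) (P Q : Place Qb F) : hW φ P Q = hW φ Q P := by
  sorry

theorem ht_tmul {φ : ι → F} {ψ : κ → F} (hφ : φ ≠ 0) (hψ : ψ ≠ 0) (P : Place Qb F) :
    ht (fun p : ι × κ => φ p.1 * ψ p.2) P = ht φ P + ht ψ P := by
  sorry

theorem ht_mul_left (φ : ι → F) {f : F} (hf : f ≠ 0) (P : Place Qb F) :
    ht (fun i => f * φ i) P = ht φ P := by
  sorry

/-- tensor powers. -/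
theorem ht_pow {φ : ι → F} (hφ : φ ≠ 0) (n : ℕ) (P : Place Qb F) :
    ht (fun p : Fin n → ι => ∏ a, φ (p a)) P = n * ht φ P := by
  sorry

end Height

end Fermat.Agent.S17.Cur
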